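/-
S19 / S32, route-independent consumer (helper235): the base ring `ℤ_(ℓ) = GaloisRep.ratLocalizedAt ℓ`.

* `isPrincipalIdealRing_Zl`  : `ℤ_(ℓ)` is a principal ideal ring (any `ℓ ≠ 0` would do; stated for
                               primes);
* `isFractionRing_Zl`        : `ℚ` is its field of fractions;
* `algebraMap_Zl_injective`  : `ℤ_(ℓ) → ℚ̄` is injective;
* `mem_range_of_fixed_of_isIntegral` : an element of `ℚ̄` that is fixed by `Gal(ℚ̄/ℚ)` and integral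
                               over `ℤ_(ℓ)` lies in `ℤ_(ℓ)`.
-/
import Mathlib
import Fermat.Prelude.Def_GaloisRep_Flat

set_option autoImplicit false

noncomputable section

namespace Fermat.Agent.S19.HopfOrder

open GaloisRep

/-- `ℚ̄`. -/
abbrev Qb : Type := AlgebraicClosure ℚ

/-- `Gal(ℚ̄/ℚ)`. -/
abbrev Gal : Type := Qb ≃ₐ[ℚ] Qb

variable (ℓ : ℕ)

/-- The base ring `ℤ_(ℓ)` as a type. -/
abbrev Zl : Type := ↥(ratLocalizedAt ℓ)

theorem coe_algebraMap_Zl_rat (r : Zl ℓ) : algebraMap (Zl ℓ) ℚ r = (r : ℚ) := rfl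

theorem algebraMap_Zl_Qb (r : Zl ℓ) : algebraMap (Zl ℓ) Qb r = algebraMap ℚ Qb (r : ℚ) := rfl

theorem algebraMap_Zl_rat_injective : Function.Injective (algebraMap (Zl ℓ) ℚ) :=
  fun _ _ h => Subtype.ext h

theorem algebraMap_Zl_injective : Function.Injective (algebraMap (Zl ℓ) Qb) := by
  intro a b h
  rw [algebraMap_Zl_Qb, algebraMap_Zl_Qb] at h
  exact Subtype.ext ((algebraMap ℚ Qb).injective h)

instance faithfulSMul_Zl_Qb : FaithfulSMul (Zl ℓ) Qb :=
  (faithfulSMul_iff_algebraMap_injective (Zl ℓ) Qb).mpr (algebraMap_Zl_injective ℓ)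

theorem intCast_mem_Zl (n : ℤ) : (n : ℚ) ∈ ratLocalizedAt ℓ := by
  change (n : ℚ).den.Coprime ℓ
  simp

/-- `ℚ` is the field of fractions of `ℤ_(ℓ)`. -/
instance isFractionRing_Zl : IsFractionRing (Zl ℓ) ℚ := by
  have : FaithfulSMul (Zl ℓ) ℚ :=
    (faithfulSMul_iff_algebraMap_injective (Zl ℓ) ℚ).mpr (algebraMap_Zl_rat_injective ℓ)
  refine IsFractionRing.of_field (Zl ℓ) ℚ fun z => ?_
  refine ⟨⟨(z.num : ℚ), intCast_mem_Zl ℓ z.num⟩, ⟨((z.den : ℤ) : ℚ), intCast_mem_Zl ℓ z.den⟩, ?_⟩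
  rw [coe_algebraMap_Zl_rat, coe_algebraMap_Zl_rat]
  simp only [Int.cast_natCast]
  exact (Rat.num_div_den z).symm

/-- `ℤ_(ℓ)` is a principal ideal ring. -/
instance isPrincipalIdealRing_Zl : IsPrincipalIdealRing (Zl ℓ) := by
  refine ⟨fun I => ?_⟩
  obtain ⟨a, ha⟩ := (inferInstance : IsPrincipalIdealRing ℤ).principal
    (Ideal.comap (Int.castRingHom (Zl ℓ)) I)
  refine ⟨⟨(a : Zl ℓ), ?_⟩⟩
  have haI : (a : Zl ℓ) ∈ I := by
    have : a ∈ Ideal.comap (Int.castRingHom (Zl ℓ)) I := by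
      rw [ha]; exact Submodule.mem_span_singleton_self a
    simpa using this
  apply le_antisymm
  · intro x hx
    have hnum : (((x : ℚ).num : ℤ) : Zl ℓ) ∈ I := by
      have h1 : x * (((x : ℚ).den : ℕ) : Zl ℓ) = (((x : ℚ).num : ℤ) : Zl ℓ) := by
        apply Subtype.ext
        push_cast
        exact Rat.mul_den_eq_num _
      rw [← h1]
      exact I.mul_mem_right _ hx
    have hnum' : (x : ℚ).num ∈ Ideal.comap (Int.castRingHom (Zl ℓ)) I := by
      simpa using hnum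
    rw [ha] at hnum'
    obtain ⟨k, hk⟩ := Submodule.mem_span_singleton.mp hnum'
    have hmem : ((k : ℚ) / ((x : ℚ).den : ℚ)) ∈ ratLocalizedAt ℓ := by
      change ((k : ℚ) / ((x : ℚ).den : ℚ)).den.Coprime ℓ
      have hdvd : ((k : ℚ) / ((x : ℚ).den : ℚ)).den ∣ (x : ℚ).den := by
        have := Rat.den_dvd k ((x : ℚ).den : ℤ)
        rw [Rat.divInt_eq_div] at this
        exact_mod_cast this
      exact Nat.Coprime.coprime_dvd_left hdvd x.2
    rw [Submodule.mem_span_singleton]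
    refine ⟨⟨_, hmem⟩, ?_⟩
    apply Subtype.ext
    have hd : ((x : ℚ).den : ℚ) ≠ 0 := by exact_mod_cast (x : ℚ).den_nz
    have hx' : (x : ℚ) = (x : ℚ).num / (x : ℚ).den := (Rat.num_div_den (x : ℚ)).symm
    have hk' : ((x : ℚ).num : ℚ) = (k : ℚ) * (a : ℚ) := by
      have := congrArg (Int.cast : ℤ → ℚ) hk
      simpa [smul_eq_mul] using this.symm
    simp only [smul_eq_mul]
    push_cast
    conv_rhs => rw [hx', hk']
    field_simp
  · rw [Submodule.span_singleton_le_iff_mem]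
    exact haI

/-- An element of `ℚ̄` fixed by `Gal(ℚ̄/ℚ)` and integral over `ℤ_(ℓ)` lies in `ℤ_(ℓ)`. -/
theorem mem_range_of_fixed_of_isIntegral {c : Qb} (hfix : ∀ σ : Gal, σ c = c)
    (hint : IsIntegral (Zl ℓ) c) : ∃ r : Zl ℓ, algebraMap (Zl ℓ) Qb r = c := by
  have : IsAlgClosure ℚ Qb := AlgebraicClosure.instIsAlgClosure ℚ
  have : IsGalois ℚ Qb := IsAlgClosure.isGalois ℚ Qb
  obtain ⟨q, rfl⟩ := (InfiniteGalois.mem_range_algebraMap_iff_fixed (k := ℚ) (K := Qb) c).mpr hfix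
  have hq : IsIntegral (Zl ℓ) q :=
    (isIntegral_algHom_iff (IsScalarTower.toAlgHom (Zl ℓ) ℚ Qb)
      (algebraMap ℚ Qb).injective).mp hint
  obtain ⟨r, hr⟩ := IsIntegrallyClosed.isIntegral_iff.mp hq
  exact ⟨r, by rw [algebraMap_Zl_Qb, ← coe_algebraMap_Zl_rat, hr]⟩

end Fermat.Agent.S19.HopfOrder
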