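/-
S19 / S32, route-independent consumer (helper235): two linear-independence lemmas.

* `linearIndependent_of_equivariant` : Galois descent of linear independence.  A family of
  `Gal(ℚ̄/ℚ)`-equivariant functions `X → ℚ̄` that is linearly independent over `ℚ` is linearly
  independent over `ℚ̄`.
* `linearIndependent_mul` : if `v i : X → K` and `w j : Y → K` are linearly independent families,
  so is `(x, y) ↦ v i x * w j y` on `X × Y`.
-/
import Mathlib
import Fermat.Agent.S19.HopfOrder.Zl

set_option autoImplicit false

noncomputable section

namespace Fermat.Agent.S19.HopfOrder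

/-- **Galois descent of linear independence.** -/
theorem linearIndependent_of_equivariant {X ι : Type*} (act : Gal → X → X)
    (hact : ∀ σ, Function.Surjective (act σ)) (v : ι → X → Qb)
    (hv : ∀ i σ x, v i (act σ x) = σ (v i x)) (hℚ : LinearIndependent ℚ v) :
    LinearIndependent Qb v := by
  classical
  have hgal : IsGalois ℚ Qb := by
    have : IsAlgClosure ℚ Qb := AlgebraicClosure.instIsAlgClosure ℚ
    exact IsAlgClosure.isGalois ℚ Qb
  rw [linearIndependent_iff']
  intro s
  induction s using Finset.induction_on with
  | empty => intro g _ i hi; simp at hi
  | insert a t hat IH =>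
    intro g hg
    by_cases hga : g a = 0
    · have hg' : ∑ i ∈ t, g i • v i = 0 := by
        rw [Finset.sum_insert hat, hga, zero_smul, zero_add] at hg
        exact hg
      intro i hi
      rcases Finset.mem_insert.mp hi with rfl | hi
      · exact hga
      · exact IH g hg' i hi
    · exfalso
      -- normalise
      set c : ι → Qb := fun i => g i / g a with hc
      have hca : c a = 1 := by simp [hc, hga]
      have hrel : ∀ x : X, ∑ i ∈ insert a t, c i * v i x = 0 := by
        intro x
        have h1 := congrFun hg x
        simp only [Finset.sum_apply, Pi.smul_apply, smul_eq_mul, Pi.zero_apply] at h1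
        have h2 : ∑ i ∈ insert a t, c i * v i x = (∑ i ∈ insert a t, g i * v i x) / g a := by
          rw [Finset.sum_div]
          refine Finset.sum_congr rfl fun i _ => ?_
          simp only [hc]
          ring
        rw [h2, h1, zero_div]
      -- the coefficients are Galois-fixed
      have hfix : ∀ σ : Gal, ∀ i ∈ t, σ (c i) = c i := by
        intro σ
        have hrel' : ∑ i ∈ t, (σ (c i) - c i) • v i = 0 := by
          funext y
          obtain ⟨x, rfl⟩ := hact σ y
          simp only [Finset.sum_apply, Pi.smul_apply, smul_eq_mul, Pi.zero_apply]
          have h1 := hrel x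
          have h2 := hrel (act σ x)
          have h3 : ∑ i ∈ insert a t, σ (c i) * v i (act σ x) = 0 := by
            have := congrArg σ h1
            rw [map_sum, map_zero] at this
            rw [← this]
            refine Finset.sum_congr rfl fun i _ => ?_
            rw [map_mul, hv]
          rw [Finset.sum_insert hat] at h2 h3
          rw [hca] at h2 h3
          rw [map_one] at h3
          have h4 : ∑ i ∈ t, (σ (c i) - c i) * v i (act σ x) =
              (∑ i ∈ t, σ (c i) * v i (act σ x)) - ∑ i ∈ t, c i * v i (act σ x) := by
            rw [← Finset.sum_sub_distrib]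
            refine Finset.sum_congr rfl fun i _ => ?_
            ring
          rw [h4]
          linear_combination h3 - h2
        intro i hi
        exact sub_eq_zero.mp (IH _ hrel' i hi)
      have hfix' : ∀ i ∈ insert a t, ∃ q : ℚ, algebraMap ℚ Qb q = c i := by
        intro i hi
        rcases Finset.mem_insert.mp hi with rfl | hi
        · exact ⟨1, by rw [map_one, hca]⟩
        · exact (InfiniteGalois.mem_range_algebraMap_iff_fixed (k := ℚ) (K := Qb) (c i)).mpr
            fun σ => hfix σ i hi
      choose! q hq using hfix'
      have hrelℚ : ∑ i ∈ insert a t, q i • v i = 0 := by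
        funext x
        simp only [Finset.sum_apply, Pi.smul_apply, Pi.zero_apply]
        rw [← hrel x]
        refine Finset.sum_congr rfl fun i hi => ?_
        rw [Algebra.smul_def, hq i hi]
      have hqa := (linearIndependent_iff'.mp hℚ) (insert a t) q hrelℚ a (Finset.mem_insert_self a t)
      have : c a = 0 := by rw [← hq a (Finset.mem_insert_self a t), hqa, map_zero]
      rw [hca] at this
      exact one_ne_zero this

/-- Products of linearly independent families of functions are linearly independent. -/
theorem linearIndependent_mul {K X Y ι κ : Type*} [Field K] [Fintype ι] [Fintype κ]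
    (v : ι → X → K) (w : κ → Y → K) (hv : LinearIndependent K v) (hw : LinearIndependent K w) :
    LinearIndependent K (fun p : ι × κ => fun q : X × Y => v p.1 q.1 * w p.2 q.2) := by
  classical
  rw [Fintype.linearIndependent_iff]
  intro g hg
  have key : ∀ (y : Y) (i : ι), ∑ j, g (i, j) * w j y = 0 := by
    intro y
    have h1 : ∑ i, (∑ j, g (i, j) * w j y) • v i = 0 := by
      funext x
      have h2 := congrFun hg (x, y)
      simp only [Finset.sum_apply, Pi.smul_apply, smul_eq_mul, Pi.zero_apply] at h2 ⊢
      rw [← h2, Fintype.sum_prod_type]
      refine Finset.sum_congr rfl fun i _ => ?_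
      rw [Finset.sum_mul]
      refine Finset.sum_congr rfl fun j _ => ?_
      ring
    exact (Fintype.linearIndependent_iff.mp hv) _ h1
  rintro ⟨i, j⟩
  have h3 : ∑ j, g (i, j) • w j = 0 := by
    funext y
    simp only [Finset.sum_apply, Pi.smul_apply, smul_eq_mul, Pi.zero_apply]
    exact key y i
  exact (Fintype.linearIndependent_iff.mp hw) (fun j => g (i, j)) h3 j

end Fermat.Agent.S19.HopfOrder
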