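/-
S19 / S32, route-independent consumer (helper235): Hopf orders of functions, basic facts.

`IsOrder act ι` : a finite `ℤ_(ℓ)`-algebra `A`, realised through an injective algebra map
`ι : A → (G → ℚ̄)` as an algebra of Galois-equivariant functions on the abelian group `G`, which
separates the points of `G` and is closed under `h ↦ ((x, y) ↦ h (x + y))` (in tensor form).

From these hypotheses alone we derive: `A` is free (hence flat), `G` is finite, every `act σ` is an
additive bijection, the `ℤ_(ℓ)`-basis of `A` is a `ℚ̄`-basis of all functions on `G`, and the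
realisations `A ⊗ A → (G × G → ℚ̄)`, `A ⊗ (A ⊗ A) → (G × (G × G) → ℚ̄)` are injective.
-/
import Mathlib
import Fermat.Agent.S19.HopfOrder.Indep

set_option autoImplicit false

noncomputable section

namespace Fermat.Agent.S19.HopfOrder

open scoped TensorProduct
open GaloisRep

/-- Pull back functions along a map (an algebra homomorphism). -/
def pull (ℓ : ℕ) {X Y : Type} (φ : Y → X) : (X → Qb) →ₐ[Zl ℓ] (Y → Qb) where
  toFun f := f ∘ φ
  map_one' := rfl
  map_mul' _ _ := rfl
  map_zero' := rfl
  map_add' _ _ := rfl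
  commutes' _ := rfl

@[simp] theorem pull_apply (ℓ : ℕ) {X Y : Type} (φ : Y → X) (f : X → Qb) (y : Y) :
    pull ℓ φ f y = f (φ y) := rfl

variable {ℓ : ℕ} {G : Type} {A : Type} [CommRing A] [Algebra (Zl ℓ) A]

/-- The two-variable realisation `a ⊗ b ↦ ((x, y) ↦ a x * b y)`. -/
def mu2 (ι : A →ₐ[Zl ℓ] (G → Qb)) : A ⊗[Zl ℓ] A →ₐ[Zl ℓ] (G × G → Qb) :=
  Algebra.TensorProduct.productMap ((pull ℓ Prod.fst).comp ι) ((pull ℓ Prod.snd).comp ι)

@[simp] theorem mu2_tmul (ι : A →ₐ[Zl ℓ] (G → Qb)) (a b : A) (p : G × G) :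
    mu2 ι (a ⊗ₜ[Zl ℓ] b) p = ι a p.1 * ι b p.2 := by
  simp [mu2]

/-- The three-variable realisation. -/
def mu3 (ι : A →ₐ[Zl ℓ] (G → Qb)) : A ⊗[Zl ℓ] (A ⊗[Zl ℓ] A) →ₐ[Zl ℓ] (G × (G × G) → Qb) :=
  Algebra.TensorProduct.productMap ((pull ℓ Prod.fst).comp ι) ((pull ℓ Prod.snd).comp (mu2 ι))

@[simp] theorem mu3_tmul (ι : A →ₐ[Zl ℓ] (G → Qb)) (a : A) (s : A ⊗[Zl ℓ] A) (q : G × (G × G)) :
    mu3 ι (a ⊗ₜ[Zl ℓ] s) q = ι a q.1 * mu2 ι s q.2 := by
  simp [mu3]

/-- Evaluation at a point of `G`, as an algebra map `A → ℚ̄`. -/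
def evA (ι : A →ₐ[Zl ℓ] (G → Qb)) (x : G) : A →ₐ[Zl ℓ] Qb :=
  (Pi.evalAlgHom (Zl ℓ) (fun _ : G => Qb) x).comp ι

@[simp] theorem evA_apply (ι : A →ₐ[Zl ℓ] (G → Qb)) (x : G) (h : A) : evA ι x h = ι h x := rfl

/-- **Hopf orders of functions.**  `A` is a finite `ℤ_(ℓ)`-algebra of Galois-equivariant
`ℚ̄`-valued functions on `G` (through `ι`) separating the points and closed under
`h ↦ ((x, y) ↦ h (x + y))`. -/
structure IsOrder [Add G] (act : Gal → G → G) (ι : A →ₐ[Zl ℓ] (G → Qb)) : Prop where
  finite : Module.Finite (Zl ℓ) A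
  inj : Function.Injective ι
  equivariant : ∀ (h : A) (σ : Gal) (x : G), ι h (act σ x) = σ (ι h x)
  sep : ∀ x y : G, x ≠ y → ∃ h : A, ι h x ≠ ι h y
  comul : ∀ h : A, ∃ t : A ⊗[Zl ℓ] A, mu2 ι t = fun p : G × G => ι h (p.1 + p.2)

/-- A linear map sending a (finite) basis to a linearly independent family is injective. -/
theorem injective_of_linearIndependent_basis {R M N κ : Type*} [CommRing R] [AddCommGroup M]
    [Module R M] [AddCommGroup N] [Module R N] [Fintype κ] (B : Module.Basis κ R M)
    (f : M →ₗ[R] N) (h : LinearIndependent R (fun i => f (B i))) : Function.Injective f := by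
  rw [injective_iff_map_eq_zero]
  intro t ht
  have h1 : ∑ i, (B.repr t) i • f (B i) = 0 := by
    rw [← ht]
    conv_rhs => rw [← B.sum_repr t]
    rw [map_sum]
    refine Finset.sum_congr rfl fun i _ => ?_
    rw [map_smul]
  have h2 := Fintype.linearIndependent_iff.mp h _ h1
  rw [← B.sum_repr t]
  refine Finset.sum_eq_zero fun i _ => ?_
  rw [h2 i, zero_smul]

theorem mu2_basis (ι : A →ₐ[Zl ℓ] (G → Qb)) {κ : Type*} (b : Module.Basis κ (Zl ℓ) A)
    (i j : κ) (q : G × G) :
    mu2 ι ((b.tensorProduct b) (i, j)) q = ι (b i) q.1 * ι (b j) q.2 := by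
  rw [Module.Basis.tensorProduct_apply, mu2_tmul]

theorem mu3_basis (ι : A →ₐ[Zl ℓ] (G → Qb)) {κ : Type*} (b : Module.Basis κ (Zl ℓ) A)
    (i j k : κ) (q : G × G × G) :
    mu3 ι ((b.tensorProduct (b.tensorProduct b)) (i, j, k)) q =
      ι (b i) q.1 * (ι (b j) q.2.1 * ι (b k) q.2.2) := by
  rw [Module.Basis.tensorProduct_apply, Module.Basis.tensorProduct_apply, mu3_tmul, mu2_tmul]

/-- `ℚ̄`-linear independence implies `ℤ_(ℓ)`-linear independence. -/
theorem linearIndependent_Zl_of_Qb {κ M : Type*} [Fintype κ] [AddCommGroup M] [Module Qb M]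
    [Module (Zl ℓ) M] [IsScalarTower (Zl ℓ) Qb M] {v : κ → M} (h : LinearIndependent Qb v) :
    LinearIndependent (Zl ℓ) v := by
  rw [Fintype.linearIndependent_iff]
  intro g hg
  have h1 : ∑ i, (algebraMap (Zl ℓ) Qb (g i)) • v i = 0 := by
    rw [← hg]
    refine Finset.sum_congr rfl fun i _ => ?_
    rw [algebraMap_smul]
  intro i
  have h2 := Fintype.linearIndependent_iff.mp h _ h1 i
  exact algebraMap_Zl_injective ℓ (h2.trans (map_zero _).symm)

namespace IsOrder

variable [AddCommGroup G] {act : Gal → G → G} {ι : A →ₐ[Zl ℓ] (G → Qb)}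

theorem isTorsionFree (O : IsOrder act ι) : Module.IsTorsionFree (Zl ℓ) A :=
  O.inj.moduleIsTorsionFree ι (fun r m => map_smul ι r m)

theorem free (O : IsOrder act ι) : Module.Free (Zl ℓ) A := by
  have := O.finite
  have := O.isTorsionFree
  exact Module.free_of_finite_type_torsion_free'

theorem flat (O : IsOrder act ι) : Module.Flat (Zl ℓ) A := by
  have := O.free
  infer_instance

theorem isIntegral (O : IsOrder act ι) (h : A) : IsIntegral (Zl ℓ) h := by
  have := O.finite
  exact IsIntegral.of_finite (Zl ℓ) h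

theorem eq_of_forall (O : IsOrder act ι) {x y : G} (h : ∀ a : A, ι a x = ι a y) : x = y := by
  by_contra hxy
  obtain ⟨a, ha⟩ := O.sep x y hxy
  exact ha (h a)

/-- `G` is finite: the values of a finite generating family are roots of monic polynomials. -/
theorem finite_G (O : IsOrder act ι) : Finite G := by
  classical
  have hfin := O.finite
  obtain ⟨S, hS⟩ := hfin.fg_top
  let P : A → Polynomial (Zl ℓ) := fun s => minpoly (Zl ℓ) s
  let T : S → Set Qb := fun s => (P (s : A)).rootSet Qb
  have hT : ∀ s, (T s).Finite := fun s => Polynomial.rootSet_finite _ _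
  have hfinite : (Set.univ.pi T).Finite := Set.Finite.pi hT
  let Φ : G → (Set.univ.pi T) := fun x => ⟨fun s => ι (s : A) x, by
    intro s _
    have hint := O.isIntegral (s : A)
    change ι (s : A) x ∈ (P (s : A)).rootSet Qb
    rw [Polynomial.mem_rootSet]
    refine ⟨minpoly.ne_zero hint, ?_⟩
    have h1 : Polynomial.aeval (evA ι x (s : A)) (P (s : A)) =
        evA ι x (Polynomial.aeval (s : A) (P (s : A))) :=
      Polynomial.aeval_algHom_apply _ _ _
    rw [evA_apply] at h1
    rw [h1, minpoly.aeval, map_zero]⟩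
  have hΦ : Function.Injective Φ := by
    intro x y hxy
    apply O.eq_of_forall
    intro a
    have ha : a ∈ Submodule.span (Zl ℓ) (S : Set A) := by rw [hS]; trivial
    induction ha using Submodule.span_induction with
    | mem s hs =>
      have := congrFun (congrArg Subtype.val hxy) ⟨s, hs⟩
      exact this
    | zero => simp
    | add u w _ _ hu hw => simp [map_add, hu, hw]
    | smul r u _ hu => simp [map_smul, hu]
  have : Finite (Set.univ.pi T) := hfinite.to_subtype
  exact Finite.of_injective Φ hΦ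

theorem act_injective (O : IsOrder act ι) (σ : Gal) : Function.Injective (act σ) := by
  intro x y hxy
  apply O.eq_of_forall
  intro a
  have h1 := O.equivariant a σ x
  have h2 := O.equivariant a σ y
  rw [hxy] at h1
  exact σ.injective (h1.symm.trans h2)

theorem act_surjective (O : IsOrder act ι) (σ : Gal) : Function.Surjective (act σ) := by
  have := O.finite_G
  exact Finite.injective_iff_surjective.mp (O.act_injective σ)

theorem mu2_act (O : IsOrder act ι) (σ : Gal) (t : A ⊗[Zl ℓ] A) (x y : G) :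
    mu2 ι t (act σ x, act σ y) = σ (mu2 ι t (x, y)) := by
  induction t using TensorProduct.induction_on with
  | zero => simp
  | tmul a b => simp [O.equivariant]
  | add s t hs ht => simp [map_add, hs, ht]

/-- Every `act σ` is additive. -/
theorem act_add (O : IsOrder act ι) (σ : Gal) (x y : G) :
    act σ (x + y) = act σ x + act σ y := by
  apply O.eq_of_forall
  intro h
  obtain ⟨t, ht⟩ := O.comul h
  have h1 := congrFun ht (x, y)
  have h2 := congrFun ht (act σ x, act σ y)
  simp only at h1 h2
  rw [O.equivariant, ← h1, ← O.mu2_act σ t x y, h2]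

theorem act_zero (O : IsOrder act ι) (σ : Gal) : act σ 0 = 0 := by
  have h := O.act_add σ 0 0
  rw [add_zero] at h
  exact left_eq_add.mp h

/-- A `ℤ_(ℓ)`-basis of `A` is `ℚ̄`-linearly independent as a family of functions on `G`. -/
theorem linearIndependent_basis (O : IsOrder act ι) {κ : Type} (b : Module.Basis κ (Zl ℓ) A) :
    LinearIndependent Qb (fun i => ι (b i)) := by
  have hR : LinearIndependent (Zl ℓ) (fun i => ι (b i)) :=
    b.linearIndependent.map' ι.toLinearMap (LinearMap.ker_eq_bot.mpr O.inj)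
  have hℚ : LinearIndependent ℚ (fun i => ι (b i)) :=
    (LinearIndependent.iff_fractionRing (Zl ℓ) ℚ).mp hR
  exact linearIndependent_of_equivariant act O.act_surjective _
    (fun i σ x => O.equivariant (b i) σ x) hℚ

theorem mu2_injective (O : IsOrder act ι) : Function.Injective (mu2 ι) := by
  have := O.finite
  have := O.free
  let b := Module.Free.chooseBasis (Zl ℓ) A
  have hb := O.linearIndependent_basis b
  have h2K := linearIndependent_mul _ _ hb hb
  have h2 : LinearIndependent (Zl ℓ)
      (fun p : _ × _ => fun q : G × G => ι (b p.1) q.1 * ι (b p.2) q.2) :=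
    linearIndependent_Zl_of_Qb h2K
  have heq : (fun p => (mu2 ι).toLinearMap ((b.tensorProduct b) p)) =
      fun p : _ × _ => fun q : G × G => ι (b p.1) q.1 * ι (b p.2) q.2 := by
    funext ⟨i, j⟩ q
    exact mu2_basis ι b i j q
  have h2' : LinearIndependent (Zl ℓ)
      (fun p => (mu2 ι).toLinearMap ((b.tensorProduct b) p)) := by
    rw [heq]
    exact h2
  exact injective_of_linearIndependent_basis (b.tensorProduct b) (mu2 ι).toLinearMap h2'

theorem mu3_injective (O : IsOrder act ι) : Function.Injective (mu3 ι) := by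
  have := O.finite
  have := O.free
  let b := Module.Free.chooseBasis (Zl ℓ) A
  have hb := O.linearIndependent_basis b
  have h2K := linearIndependent_mul _ _ hb hb
  have h3K := linearIndependent_mul _ _ hb h2K
  have h3 : LinearIndependent (Zl ℓ)
      (fun p : _ × _ × _ => fun q : G × G × G =>
        ι (b p.1) q.1 * (ι (b p.2.1) q.2.1 * ι (b p.2.2) q.2.2)) :=
    linearIndependent_Zl_of_Qb h3K
  have heq : (fun p => (mu3 ι).toLinearMap ((b.tensorProduct (b.tensorProduct b)) p)) =
      fun p : _ × _ × _ => fun q : G × G × G =>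
        ι (b p.1) q.1 * (ι (b p.2.1) q.2.1 * ι (b p.2.2) q.2.2) := by
    funext ⟨i, j, k⟩ q
    exact mu3_basis ι b i j k q
  have h3' : LinearIndependent (Zl ℓ)
      (fun p => (mu3 ι).toLinearMap ((b.tensorProduct (b.tensorProduct b)) p)) := by
    rw [heq]
    exact h3
  exact injective_of_linearIndependent_basis (b.tensorProduct (b.tensorProduct b))
    (mu3 ι).toLinearMap h3'

end IsOrder

end Fermat.Agent.S19.HopfOrder
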