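/-
S19 / S32, route-independent consumer (helper235): the Hopf algebra structure of a Hopf order of
functions.

For `O : IsOrder act ι` we construct, as algebra homomorphisms,
* `O.counitHom : A →ₐ ℤ_(ℓ)`,      `algebraMap (O.counitHom h) = ι h 0`;
* `O.comulHom  : A →ₐ A ⊗ A`,       `mu2 ι (O.comulHom h) (x, y) = ι h (x + y)`;
* `O.antipodeHom : A →ₐ A`,         `ι (O.antipodeHom h) x = ι h (-x)`
(the antipode exists because `-x = (2 |G| - 1) • x` and `h ∘ (k • ·)` lies in `A` for `k ≥ 1`),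
and the instances `O.bialgebra`, `O.hopfAlgebra`, with cocommutativity.
-/
import Mathlib
import Fermat.Agent.S19.HopfOrder.Basic

set_option autoImplicit false

noncomputable section

namespace Fermat.Agent.S19.HopfOrder

open scoped TensorProduct
open GaloisRep

variable {ℓ : ℕ} {G : Type} {A : Type} [CommRing A] [Algebra (Zl ℓ) A]

namespace IsOrder

variable [AddCommGroup G] {act : Gal → G → G} {ι : A →ₐ[Zl ℓ] (G → Qb)}

/-! ### The counit -/

theorem exists_counit (O : IsOrder act ι) (h : A) :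
    ∃ r : Zl ℓ, algebraMap (Zl ℓ) Qb r = ι h 0 := by
  refine mem_range_of_fixed_of_isIntegral ℓ (fun σ => ?_) ?_
  · rw [← O.equivariant h σ 0, O.act_zero]
  · exact (O.isIntegral h).map (evA ι 0)

theorem evA_zero_mem (O : IsOrder act ι) (h : A) :
    evA ι 0 h ∈ (Algebra.ofId (Zl ℓ) Qb).range := by
  obtain ⟨r, hr⟩ := O.exists_counit h
  exact ⟨r, hr⟩

/-- The counit `h ↦ h 0`. -/
def counitHom (O : IsOrder act ι) : A →ₐ[Zl ℓ] Zl ℓ :=
  ((AlgEquiv.ofInjective (Algebra.ofId (Zl ℓ) Qb) (algebraMap_Zl_injective ℓ)).symm :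
      (Algebra.ofId (Zl ℓ) Qb).range →ₐ[Zl ℓ] Zl ℓ).comp
    ((evA ι 0).codRestrict (Algebra.ofId (Zl ℓ) Qb).range O.evA_zero_mem)

theorem algebraMap_counitHom (O : IsOrder act ι) (h : A) :
    algebraMap (Zl ℓ) Qb (O.counitHom h) = ι h 0 := by
  have h1 := (AlgEquiv.ofInjective (Algebra.ofId (Zl ℓ) Qb) (algebraMap_Zl_injective ℓ)).apply_symm_apply
    ((evA ι 0).codRestrict (Algebra.ofId (Zl ℓ) Qb).range O.evA_zero_mem h)
  have h2 := congrArg Subtype.val h1
  exact (AlgEquiv.ofInjective_apply (Algebra.ofId (Zl ℓ) Qb) (algebraMap_Zl_injective ℓ)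
    (O.counitHom h)).symm.trans h2

/-! ### The comultiplication -/

theorem add_mem_range (O : IsOrder act ι) (h : A) :
    ((pull ℓ (fun p : G × G => p.1 + p.2)).comp ι) h ∈ (mu2 ι).range := by
  obtain ⟨t, ht⟩ := O.comul h
  exact ⟨t, ht⟩

/-- The comultiplication `h ↦ ((x, y) ↦ h (x + y))`. -/
def comulHom (O : IsOrder act ι) : A →ₐ[Zl ℓ] A ⊗[Zl ℓ] A :=
  ((AlgEquiv.ofInjective (mu2 ι) O.mu2_injective).symm : (mu2 ι).range →ₐ[Zl ℓ] A ⊗[Zl ℓ] A).comp
    (((pull ℓ (fun p : G × G => p.1 + p.2)).comp ι).codRestrict (mu2 ι).range O.add_mem_range)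

theorem mu2_comulHom (O : IsOrder act ι) (h : A) (p : G × G) :
    mu2 ι (O.comulHom h) p = ι h (p.1 + p.2) := by
  have h1 := (AlgEquiv.ofInjective (mu2 ι) O.mu2_injective).apply_symm_apply
    (((pull ℓ (fun p : G × G => p.1 + p.2)).comp ι).codRestrict (mu2 ι).range O.add_mem_range h)
  have h2 := congrArg Subtype.val h1
  rw [AlgEquiv.ofInjective_apply] at h2
  exact congrFun h2 p

/-! ### The antipode -/

theorem exists_nsmul (O : IsOrder act ι) (k : ℕ) (hk : 1 ≤ k) :
    ∀ h : A, ∃ h' : A, ι h' = fun x => ι h (k • x) := by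
  induction k, hk using Nat.le_induction with
  | base => intro h; exact ⟨h, by funext x; rw [one_nsmul]⟩
  | succ k _ IH =>
    intro h
    obtain ⟨t, ht⟩ := O.comul h
    have key : ∀ t : A ⊗[Zl ℓ] A, ∃ h' : A, ι h' = fun x => mu2 ι t (k • x, x) := by
      intro t
      induction t using TensorProduct.induction_on with
      | zero => exact ⟨0, by funext x; simp⟩
      | tmul a b =>
        obtain ⟨a', ha'⟩ := IH a
        refine ⟨a' * b, ?_⟩
        funext x
        simp [map_mul, ha']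
      | add s t hs ht =>
        obtain ⟨s', hs'⟩ := hs
        obtain ⟨t', ht'⟩ := ht
        refine ⟨s' + t', ?_⟩
        funext x
        simp [map_add, hs', ht']
    obtain ⟨h', hh'⟩ := key t
    refine ⟨h', ?_⟩
    rw [hh']
    funext x
    have := congrFun ht (k • x, x)
    simp only at this
    rw [this, succ_nsmul]

theorem exists_neg (O : IsOrder act ι) (h : A) : ∃ h' : A, ι h' = fun x => ι h (-x) := by
  have := O.finite_G
  have hn : 0 < Nat.card G := Nat.card_pos
  obtain ⟨h', hh'⟩ := O.exists_nsmul (2 * Nat.card G - 1) (by omega) h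
  refine ⟨h', ?_⟩
  rw [hh']
  funext x
  have h1 : (2 * Nat.card G - 1) • x + x = 0 := by
    rw [← succ_nsmul]
    have : 2 * Nat.card G - 1 + 1 = 2 * Nat.card G := by omega
    rw [this, mul_comm, mul_nsmul, card_nsmul_eq_zero', nsmul_zero]
  exact congrArg (ι h) (eq_neg_of_add_eq_zero_left h1)

theorem neg_mem_range (O : IsOrder act ι) (h : A) :
    ((pull ℓ (Neg.neg : G → G)).comp ι) h ∈ ι.range := by
  obtain ⟨h', hh'⟩ := O.exists_neg h
  exact ⟨h', hh'⟩

/-- The antipode `h ↦ (x ↦ h (-x))`. -/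
def antipodeHom (O : IsOrder act ι) : A →ₐ[Zl ℓ] A :=
  ((AlgEquiv.ofInjective ι O.inj).symm : ι.range →ₐ[Zl ℓ] A).comp
    (((pull ℓ (Neg.neg : G → G)).comp ι).codRestrict ι.range O.neg_mem_range)

theorem ι_antipodeHom (O : IsOrder act ι) (h : A) (x : G) :
    ι (O.antipodeHom h) x = ι h (-x) := by
  have h1 := (AlgEquiv.ofInjective ι O.inj).apply_symm_apply
    (((pull ℓ (Neg.neg : G → G)).comp ι).codRestrict ι.range O.neg_mem_range h)
  have h2 := congrArg Subtype.val h1
  rw [AlgEquiv.ofInjective_apply] at h2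
  exact congrFun h2 x

/-! ### Realisation formulas -/

theorem mu3_map_id_comul (O : IsOrder act ι) (t : A ⊗[Zl ℓ] A) (q : G × G × G) :
    mu3 ι (Algebra.TensorProduct.map (AlgHom.id (Zl ℓ) A) O.comulHom t) q =
      mu2 ι t (q.1, q.2.1 + q.2.2) := by
  induction t using TensorProduct.induction_on with
  | zero => simp
  | tmul a b => simp [O.mu2_comulHom]
  | add s t hs ht => simp [map_add, hs, ht]

omit [AddCommGroup G] in
theorem mu3_assoc (ι : A →ₐ[Zl ℓ] (G → Qb)) (s : A ⊗[Zl ℓ] A) (c : A) (q : G × G × G) :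
    mu3 ι (Algebra.TensorProduct.assoc (Zl ℓ) (Zl ℓ) (Zl ℓ) A A A (s ⊗ₜ[Zl ℓ] c)) q =
      mu2 ι s (q.1, q.2.1) * ι c q.2.2 := by
  induction s using TensorProduct.induction_on with
  | zero => simp
  | tmul a b => simp [mul_assoc]
  | add s t hs ht => simp [TensorProduct.add_tmul, map_add, hs, ht, add_mul]

theorem mu3_assoc_map_comul_id (O : IsOrder act ι) (t : A ⊗[Zl ℓ] A) (q : G × G × G) :
    mu3 ι (Algebra.TensorProduct.assoc (Zl ℓ) (Zl ℓ) (Zl ℓ) A A A
        (Algebra.TensorProduct.map O.comulHom (AlgHom.id (Zl ℓ) A) t)) q =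
      mu2 ι t (q.1 + q.2.1, q.2.2) := by
  induction t using TensorProduct.induction_on with
  | zero => simp
  | tmul a b => simp [mu3_assoc, O.mu2_comulHom]
  | add s t hs ht => simp [map_add, hs, ht]

theorem ι_lid_map_counit (O : IsOrder act ι) (t : A ⊗[Zl ℓ] A) (y : G) :
    ι (Algebra.TensorProduct.lid (Zl ℓ) A
        (Algebra.TensorProduct.map O.counitHom (AlgHom.id (Zl ℓ) A) t)) y = mu2 ι t (0, y) := by
  induction t using TensorProduct.induction_on with
  | zero => simp
  | tmul a b =>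
    rw [Algebra.TensorProduct.map_tmul, Algebra.TensorProduct.lid_tmul, map_smul, Pi.smul_apply,
      Algebra.smul_def, O.algebraMap_counitHom, mu2_tmul]
    rfl
  | add s t hs ht => simp [map_add, hs, ht]

theorem ι_rid_map_counit (O : IsOrder act ι) (t : A ⊗[Zl ℓ] A) (x : G) :
    ι (Algebra.TensorProduct.rid (Zl ℓ) (Zl ℓ) A
        (Algebra.TensorProduct.map (AlgHom.id (Zl ℓ) A) O.counitHom t)) x = mu2 ι t (x, 0) := by
  induction t using TensorProduct.induction_on with
  | zero => simp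
  | tmul a b =>
    rw [Algebra.TensorProduct.map_tmul, Algebra.TensorProduct.rid_tmul, map_smul, Pi.smul_apply,
      Algebra.smul_def, O.algebraMap_counitHom, mu2_tmul, mul_comm]
    rfl
  | add s t hs ht => simp [map_add, hs, ht]

theorem ι_lift_antipode_id (O : IsOrder act ι) (t : A ⊗[Zl ℓ] A) (x : G) :
    ι (Algebra.TensorProduct.lift O.antipodeHom (AlgHom.id (Zl ℓ) A) (fun _ _ => Commute.all _ _) t) x
      = mu2 ι t (-x, x) := by
  induction t using TensorProduct.induction_on with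
  | zero => simp
  | tmul a b => simp [O.ι_antipodeHom]
  | add s t hs ht => simp [map_add, hs, ht]

theorem ι_lift_id_antipode (O : IsOrder act ι) (t : A ⊗[Zl ℓ] A) (x : G) :
    ι (Algebra.TensorProduct.lift (AlgHom.id (Zl ℓ) A) O.antipodeHom (fun _ _ => Commute.all _ _) t) x
      = mu2 ι t (x, -x) := by
  induction t using TensorProduct.induction_on with
  | zero => simp
  | tmul a b => simp [O.ι_antipodeHom]
  | add s t hs ht => simp [map_add, hs, ht]

omit [AddCommGroup G] in
theorem mu2_comm (ι : A →ₐ[Zl ℓ] (G → Qb)) (t : A ⊗[Zl ℓ] A) (p : G × G) :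
    mu2 ι (TensorProduct.comm (Zl ℓ) A A t) p = mu2 ι t (p.2, p.1) := by
  induction t using TensorProduct.induction_on with
  | zero => simp
  | tmul a b => simp [mul_comm]
  | add s t hs ht => simp [map_add, hs, ht]

end IsOrder

end Fermat.Agent.S19.HopfOrder
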