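/-
S19 / S32, route-independent consumer (helper235): the `Bialgebra` / `HopfAlgebra` instances of a
Hopf order of functions, and cocommutativity.
-/
import Mathlib
import Fermat.Agent.S19.HopfOrder.Hopf

set_option autoImplicit false

noncomputable section

namespace Fermat.Agent.S19.HopfOrder

open scoped TensorProduct
open GaloisRep

variable {ℓ : ℕ} {G : Type} {A : Type} [CommRing A] [Algebra (Zl ℓ) A]

namespace IsOrder

variable [AddCommGroup G] {act : Gal → G → G} {ι : A →ₐ[Zl ℓ] (G → Qb)}

theorem coassoc_hom (O : IsOrder act ι) :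
    (Algebra.TensorProduct.assoc (Zl ℓ) (Zl ℓ) (Zl ℓ) A A A).toAlgHom.comp
        ((Algebra.TensorProduct.map O.comulHom (AlgHom.id (Zl ℓ) A)).comp O.comulHom) =
      (Algebra.TensorProduct.map (AlgHom.id (Zl ℓ) A) O.comulHom).comp O.comulHom := by
  apply AlgHom.ext
  intro h
  apply O.mu3_injective
  funext q
  change mu3 ι (Algebra.TensorProduct.assoc (Zl ℓ) (Zl ℓ) (Zl ℓ) A A A
      (Algebra.TensorProduct.map O.comulHom (AlgHom.id (Zl ℓ) A) (O.comulHom h))) q =
    mu3 ι (Algebra.TensorProduct.map (AlgHom.id (Zl ℓ) A) O.comulHom (O.comulHom h)) q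
  rw [O.mu3_assoc_map_comul_id, O.mu3_map_id_comul, O.mu2_comulHom, O.mu2_comulHom]
  simp only [add_assoc]

theorem rTensor_hom (O : IsOrder act ι) :
    (Algebra.TensorProduct.map O.counitHom (AlgHom.id (Zl ℓ) A)).comp O.comulHom =
      (Algebra.TensorProduct.lid (Zl ℓ) A).symm := by
  apply AlgHom.ext
  intro h
  apply (Algebra.TensorProduct.lid (Zl ℓ) A).injective
  apply O.inj
  funext y
  change ι (Algebra.TensorProduct.lid (Zl ℓ) A
      (Algebra.TensorProduct.map O.counitHom (AlgHom.id (Zl ℓ) A) (O.comulHom h))) y =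
    ι (Algebra.TensorProduct.lid (Zl ℓ) A ((Algebra.TensorProduct.lid (Zl ℓ) A).symm h)) y
  rw [O.ι_lid_map_counit, O.mu2_comulHom, AlgEquiv.apply_symm_apply]
  simp

theorem lTensor_hom (O : IsOrder act ι) :
    (Algebra.TensorProduct.map (AlgHom.id (Zl ℓ) A) O.counitHom).comp O.comulHom =
      (Algebra.TensorProduct.rid (Zl ℓ) (Zl ℓ) A).symm := by
  apply AlgHom.ext
  intro h
  apply (Algebra.TensorProduct.rid (Zl ℓ) (Zl ℓ) A).injective
  apply O.inj
  funext x
  change ι (Algebra.TensorProduct.rid (Zl ℓ) (Zl ℓ) A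
      (Algebra.TensorProduct.map (AlgHom.id (Zl ℓ) A) O.counitHom (O.comulHom h))) x =
    ι (Algebra.TensorProduct.rid (Zl ℓ) (Zl ℓ) A
      ((Algebra.TensorProduct.rid (Zl ℓ) (Zl ℓ) A).symm h)) x
  rw [O.ι_rid_map_counit, O.mu2_comulHom, AlgEquiv.apply_symm_apply]
  simp

/-- The bialgebra structure on a Hopf order of functions. -/
@[reducible] def bialgebra (O : IsOrder act ι) : Bialgebra (Zl ℓ) A :=
  Bialgebra.ofAlgHom O.comulHom O.counitHom O.coassoc_hom O.rTensor_hom O.lTensor_hom

theorem comul_eq (O : IsOrder act ι) (h : A) :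
    letI := O.bialgebra
    Coalgebra.comul (R := Zl ℓ) h = O.comulHom h := rfl

theorem counit_eq (O : IsOrder act ι) (h : A) :
    letI := O.bialgebra
    Coalgebra.counit (R := Zl ℓ) h = O.counitHom h := rfl

/-- The Hopf algebra structure on a Hopf order of functions. -/
@[reducible] def hopfAlgebra (O : IsOrder act ι) : HopfAlgebra (Zl ℓ) A :=
  letI := O.bialgebra
  HopfAlgebra.ofAlgHom O.antipodeHom
    (by
      apply AlgHom.ext
      intro h
      apply O.inj
      funext x
      change ι (Algebra.TensorProduct.lift O.antipodeHom (AlgHom.id (Zl ℓ) A)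
          (fun _ _ => Commute.all _ _) (O.comulHom h)) x =
        ι (algebraMap (Zl ℓ) A (O.counitHom h)) x
      rw [O.ι_lift_antipode_id, O.mu2_comulHom, AlgHom.commutes, Pi.algebraMap_apply,
        O.algebraMap_counitHom]
      simp)
    (by
      apply AlgHom.ext
      intro h
      apply O.inj
      funext x
      change ι (Algebra.TensorProduct.lift (AlgHom.id (Zl ℓ) A) O.antipodeHom
          (fun _ _ => Commute.all _ _) (O.comulHom h)) x =
        ι (algebraMap (Zl ℓ) A (O.counitHom h)) x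
      rw [O.ι_lift_id_antipode, O.mu2_comulHom, AlgHom.commutes, Pi.algebraMap_apply,
        O.algebraMap_counitHom]
      simp)

theorem isCocomm (O : IsOrder act ι) :
    letI := O.bialgebra
    Coalgebra.IsCocomm (Zl ℓ) A := by
  let _ := O.bialgebra
  refine ⟨?_⟩
  apply LinearMap.ext
  intro h
  apply O.mu2_injective
  funext p
  change mu2 ι (TensorProduct.comm (Zl ℓ) A A (O.comulHom h)) p = mu2 ι (O.comulHom h) p
  rw [mu2_comm, O.mu2_comulHom, O.mu2_comulHom, add_comm]

end IsOrder

end Fermat.Agent.S19.HopfOrder
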