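/-
S19 / S32, route-independent consumer (helper235): the points of a Hopf order of functions.

For `O : IsOrder act ι`:
* `O.span_range_eq_top` : the `ℚ̄`-span of `A` is the algebra of all functions on `G` (Lagrange);
* `O.exists_eq_evA`     : every `ℤ_(ℓ)`-algebra map `A → ℚ̄` is the evaluation at a point of `G`;
* `O.evA_injective`     : distinct points give distinct evaluations;
* `lift_evA`            : `(ev_x ⊗ ev_y)(t) = mu2 ι t (x, y)`.
-/
import Mathlib
import Fermat.Agent.S19.HopfOrder.Instance

set_option autoImplicit false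

noncomputable section

namespace Fermat.Agent.S19.HopfOrder

open scoped TensorProduct
open GaloisRep

variable {ℓ : ℕ} {G : Type} {A : Type} [CommRing A] [Algebra (Zl ℓ) A]

theorem lift_evA (ι : A →ₐ[Zl ℓ] (G → Qb)) (x y : G) (t : A ⊗[Zl ℓ] A) :
    Algebra.TensorProduct.lift (evA ι x) (evA ι y) (fun _ _ => Commute.all _ _) t =
      mu2 ι t (x, y) := by
  induction t using TensorProduct.induction_on with
  | zero => simp
  | tmul a b => simp
  | add s t hs ht => simp [map_add, hs, ht]

namespace IsOrder

variable [AddCommGroup G] {act : Gal → G → G} {ι : A →ₐ[Zl ℓ] (G → Qb)}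

theorem evA_injective (O : IsOrder act ι) : Function.Injective (evA ι) := by
  intro x y hxy
  apply O.eq_of_forall
  intro a
  exact congrArg (fun φ : A →ₐ[Zl ℓ] Qb => φ a) hxy

/-- The `ℚ̄`-span of a Hopf order of functions is the algebra of all functions on `G`. -/
theorem span_range_eq_top (O : IsOrder act ι) :
    Submodule.span Qb (Set.range ι : Set (G → Qb)) = ⊤ := by
  classical
  have := O.finite_G
  let _ := Fintype.ofFinite G
  set V := Submodule.span Qb (Set.range ι : Set (G → Qb)) with hV
  have h1 : (1 : G → Qb) ∈ V := Submodule.subset_span ⟨1, map_one ι⟩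
  have hmul : ∀ u w : G → Qb, u ∈ V → w ∈ V → u * w ∈ V := by
    intro u w hu hw
    induction hu using Submodule.span_induction with
    | mem a ha =>
      obtain ⟨a', rfl⟩ := ha
      induction hw using Submodule.span_induction with
      | mem b hb =>
        obtain ⟨b', rfl⟩ := hb
        rw [← map_mul]
        exact Submodule.subset_span ⟨_, rfl⟩
      | zero => rw [mul_zero]; exact V.zero_mem
      | add b c _ _ hb hc => rw [mul_add]; exact V.add_mem hb hc
      | smul c b _ hb => rw [mul_smul_comm]; exact V.smul_mem c hb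
    | zero => rw [zero_mul]; exact V.zero_mem
    | add a b _ _ ha hb => rw [add_mul]; exact V.add_mem ha hb
    | smul c a _ ha => rw [smul_mul_assoc]; exact V.smul_mem c ha
  have hconst : ∀ c : Qb, (fun _ : G => c) ∈ V := by
    intro c
    have : (fun _ : G => c) = c • (1 : G → Qb) := by
      funext z
      simp
    rw [this]
    exact V.smul_mem c h1
  have hsingle : ∀ x : G, (Pi.single x 1 : G → Qb) ∈ V := by
    intro x
    have hex : ∀ y : G, ∃ a : A, y ≠ x → ι a x ≠ ι a y := by
      intro y
      by_cases hy : y = x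
      · exact ⟨0, fun h => absurd hy h⟩
      · obtain ⟨a, ha⟩ := O.sep x y (Ne.symm hy)
        exact ⟨a, fun _ => ha⟩
    choose a ha using hex
    let F : G → (G → Qb) := fun y =>
      (ι (a y) - fun _ => ι (a y) y) * fun _ => (ι (a y) x - ι (a y) y)⁻¹
    have hF : ∀ y, F y ∈ V := fun y =>
      hmul _ _ (V.sub_mem (Submodule.subset_span ⟨_, rfl⟩) (hconst _)) (hconst _)
    have hprod : (∏ y ∈ Finset.univ.erase x, F y) ∈ V :=
      Finset.prod_induction F (· ∈ V) hmul h1 (fun y _ => hF y)
    have heq : (∏ y ∈ Finset.univ.erase x, F y) = Pi.single x 1 := by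
      funext z
      rw [Finset.prod_apply]
      by_cases hz : z = x
      · subst hz
        rw [Pi.single_eq_same]
        refine Finset.prod_eq_one fun y hy => ?_
        have hyx : y ≠ z := Finset.ne_of_mem_erase hy
        simp only [F, Pi.mul_apply, Pi.sub_apply]
        exact mul_inv_cancel₀ (sub_ne_zero.mpr (ha y hyx))
      · rw [Pi.single_eq_of_ne hz]
        refine Finset.prod_eq_zero (Finset.mem_erase.mpr ⟨hz, Finset.mem_univ z⟩) ?_
        simp [F]
    rw [← heq]
    exact hprod
  rw [eq_top_iff]
  intro f _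
  have hf : f = ∑ x, f x • (Pi.single x 1 : G → Qb) := by
    conv_lhs => rw [← Finset.univ_sum_single f]
    refine Finset.sum_congr rfl fun x _ => ?_
    funext z
    by_cases hz : z = x
    · subst hz; simp
    · simp [Pi.single_eq_of_ne hz]
  rw [hf]
  exact V.sum_mem fun x _ => V.smul_mem _ (hsingle x)

/-- Every algebra map from a Hopf order of functions to `ℚ̄` is the evaluation at a point. -/
theorem exists_eq_evA (O : IsOrder act ι) (φ : A →ₐ[Zl ℓ] Qb) : ∃ x : G, evA ι x = φ := by
  classical
  have := O.finite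
  have := O.free
  have := O.finite_G
  let _ := Fintype.ofFinite G
  let b := Module.Free.chooseBasis (Zl ℓ) A
  have hli := O.linearIndependent_basis b
  have hsp : ⊤ ≤ Submodule.span Qb (Set.range fun i => ι (b i)) := by
    rw [← O.span_range_eq_top]
    refine Submodule.span_le.mpr ?_
    rintro _ ⟨a, rfl⟩
    rw [← b.sum_repr a, map_sum]
    refine Submodule.sum_mem _ fun i _ => ?_
    rw [map_smul, ← algebraMap_smul Qb ((b.repr a) i) (ι (b i))]
    exact Submodule.smul_mem _ _ (Submodule.subset_span ⟨i, rfl⟩)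
  let Bv : Module.Basis _ Qb (G → Qb) := Module.Basis.mk hli hsp
  have hBv : ∀ i, Bv i = ι (b i) := fun i => Module.Basis.mk_apply hli hsp i
  let Φ : (G → Qb) →ₗ[Qb] Qb := Bv.constr Qb (fun i => φ (b i))
  have hΦb : ∀ i, Φ (ι (b i)) = φ (b i) := by
    intro i
    have h := Bv.constr_basis Qb (fun i => φ (b i)) i
    rw [hBv] at h
    exact h
  have hΦι : ∀ a, Φ (ι a) = φ a := by
    intro a
    rw [← b.sum_repr a, map_sum, map_sum, map_sum]
    refine Finset.sum_congr rfl fun i _ => ?_
    rw [map_smul ι, ← algebraMap_smul Qb ((b.repr a) i) (ι (b i)), map_smul Φ, hΦb, map_smul φ,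
      smul_eq_mul, Algebra.smul_def]
  have hΦmul : ∀ u w, Φ (u * w) = Φ u * Φ w := by
    have key : (LinearMap.mul Qb (G → Qb)).compr₂ Φ = (LinearMap.mul Qb Qb).compl₁₂ Φ Φ := by
      apply Bv.ext
      intro i
      apply Bv.ext
      intro j
      rw [hBv, hBv]
      simp only [LinearMap.compr₂_apply, LinearMap.mul_apply', LinearMap.compl₁₂_apply]
      rw [← map_mul, hΦι, map_mul, hΦb, hΦb]
    intro u w
    have := LinearMap.congr_fun₂ key u w
    simpa using this
  have hΦ1 : Φ 1 = 1 := by rw [← map_one ι, hΦι, map_one]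
  have hsum : ∑ x : G, Φ (Pi.single x 1) = 1 := by
    rw [← map_sum]
    have : ∑ x : G, (Pi.single x 1 : G → Qb) = 1 := by
      have h := Finset.univ_sum_single (1 : G → Qb)
      simpa using h
    rw [this, hΦ1]
  obtain ⟨x, hx⟩ : ∃ x, Φ (Pi.single x 1) ≠ 0 := by
    by_contra hcon
    have hcon' : ∀ x, Φ (Pi.single x 1) = 0 := fun x => by
      by_contra hx
      exact hcon ⟨x, hx⟩
    rw [Finset.sum_eq_zero fun x _ => hcon' x] at hsum
    exact zero_ne_one hsum
  have hidem : Φ (Pi.single x 1) = 1 := by
    have h2 : Φ (Pi.single x 1) * Φ (Pi.single x 1) = Φ (Pi.single x 1) := by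
      rw [← hΦmul]
      congr 1
      funext z
      by_cases hz : z = x
      · subst hz; simp
      · simp [Pi.single_eq_of_ne hz]
    exact mul_left_cancel₀ hx (h2.trans (mul_one _).symm)
  have hother : ∀ y, y ≠ x → Φ (Pi.single y 1) = 0 := by
    intro y hy
    have h2 : Φ (Pi.single y 1) * Φ (Pi.single x 1) = 0 := by
      rw [← hΦmul]
      have : (Pi.single y 1 * Pi.single x 1 : G → Qb) = 0 := by
        funext z
        by_cases hz : z = x
        · subst hz; simp [Pi.single_eq_of_ne (Ne.symm hy)]
        · simp [Pi.single_eq_of_ne hz]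
      rw [this, map_zero]
    rw [hidem, mul_one] at h2
    exact h2
  refine ⟨x, AlgHom.ext fun a => ?_⟩
  rw [evA_apply, ← hΦι a]
  have hf : ι a = ∑ y, ι a y • (Pi.single y 1 : G → Qb) := by
    conv_lhs => rw [← Finset.univ_sum_single (ι a)]
    refine Finset.sum_congr rfl fun y _ => ?_
    funext z
    by_cases hz : z = y
    · subst hz; simp
    · simp [Pi.single_eq_of_ne hz]
  conv_rhs => rw [hf]
  rw [map_sum, Finset.sum_eq_single x]
  · rw [map_smul, hidem, smul_eq_mul, mul_one]
  · intro y _ hy
    rw [map_smul, hother y hy, smul_zero]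
  · intro h
    exact absurd (Finset.mem_univ x) h

end IsOrder

end Fermat.Agent.S19.HopfOrder
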