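/-
S19 / S32, route-independent consumer (helper235): the two frozen shapes.

* `frozenS19_of_order` : the conclusion of the frozen S19
  (`ModularCurve.exists_finiteFlat_model_jZero_torsion`) VERBATIM, from a Hopf order of functions
  on `G = J₀(p)[ℓ^k] = ↥(Submodule.torsionBy ℤ (JZero p) (ℓ^k))` (Galois action `torsAct`).
* `isFlatAt_of_orders` : `GaloisRepAdic.IsFlatAt` (S32) from Hopf orders of functions on the
  finite quotients `ρ.V ⧸ I • ⊤` (Galois action `ρ.levelAction I`).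
-/
import Mathlib
import Fermat.Prelude.Def_ModularCurve_ArithmeticGalois
import Fermat.Agent.S19.HopfOrder

set_option autoImplicit false

noncomputable section

namespace Fermat.Agent.S19.HopfOrder

open GaloisRep ModularCurve

/-- The action on the `n`-torsion induced by a distributive action. -/
def torsAct {Γ M : Type*} [Monoid Γ] [AddCommGroup M] [DistribMulAction Γ M] (n : ℤ) (σ : Γ)
    (x : Submodule.torsionBy ℤ M n) : Submodule.torsionBy ℤ M n :=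
  ⟨σ • (x : M), by
    rw [Submodule.mem_torsionBy_iff]
    have h2 : n • (x : M) = 0 := (Submodule.mem_torsionBy_iff _ _).mp x.2
    have h1 : n • (σ • (x : M)) = σ • (n • (x : M)) :=
      (map_zsmul (DistribSMul.toAddMonoidHom M σ) n (x : M)).symm
    rw [h1, h2, smul_zero]⟩

@[simp] theorem coe_torsAct {Γ M : Type*} [Monoid Γ] [AddCommGroup M] [DistribMulAction Γ M]
    (n : ℤ) (σ : Γ) (x : Submodule.torsionBy ℤ M n) : ((torsAct n σ x : _) : M) = σ • (x : M) :=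
  rfl

/-- **The frozen S19 from a Hopf order of functions on `J₀(p)[ℓ^k]`.** -/
theorem frozenS19_of_order (p : ℕ) [NeZero p] (ℓ : ℕ) (k : ℕ)
    (H : Subalgebra (ratLocalizedAt ℓ)
      (↥(Submodule.torsionBy ℤ (JZero p) ((ℓ : ℤ) ^ k)) → AlgebraicClosure ℚ))
    (hfg : (Subalgebra.toSubmodule H).FG)
    (heq : ∀ h ∈ H, ∀ (σ : AlgebraicClosure ℚ ≃ₐ[ℚ] AlgebraicClosure ℚ)
      (x : ↥(Submodule.torsionBy ℤ (JZero p) ((ℓ : ℤ) ^ k))),
      h (torsAct ((ℓ : ℤ) ^ k) σ x) = σ (h x))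
    (hsep : ∀ x y : ↥(Submodule.torsionBy ℤ (JZero p) ((ℓ : ℤ) ^ k)), x ≠ y → ∃ h ∈ H, h x ≠ h y)
    (hΔ : ∀ h ∈ H, (fun q : ↥(Submodule.torsionBy ℤ (JZero p) ((ℓ : ℤ) ^ k)) ×
        ↥(Submodule.torsionBy ℤ (JZero p) ((ℓ : ℤ) ^ k)) => h (q.1 + q.2)) ∈
      Submodule.span (ratLocalizedAt ℓ)
        {F | ∃ a ∈ H, ∃ b ∈ H, F = fun q => a q.1 * b q.2}) :
    ∃ (H : Type) (_ : CommRing H) (_ : HopfAlgebra (GaloisRep.ratLocalizedAt ℓ) H),
      Module.Finite (GaloisRep.ratLocalizedAt ℓ) H ∧ Module.Flat (GaloisRep.ratLocalizedAt ℓ) H ∧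
      Coalgebra.IsCocomm (GaloisRep.ratLocalizedAt ℓ) H ∧
      ∃ e : WithConv (H →ₐ[GaloisRep.ratLocalizedAt ℓ] AlgebraicClosure ℚ) ≃
          ↥(Submodule.torsionBy ℤ (JZero p) ((ℓ : ℤ) ^ k)),
        (∀ f g, e (f * g) = e f + e g) ∧
        ∀ (σ : AlgebraicClosure ℚ ≃ₐ[ℚ] AlgebraicClosure ℚ)
          (f g : WithConv (H →ₐ[GaloisRep.ratLocalizedAt ℓ] AlgebraicClosure ℚ)),
          (∀ h : H, g h = σ (f h)) → ((e g : JZero p)) = σ • (e f : JZero p) := by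
  obtain ⟨H', i1, i2, h1, h2, h3, e, he1, he2⟩ :=
    exists_hopf_of_order ℓ (torsAct ((ℓ : ℤ) ^ k)) H hfg heq hsep hΔ
  exact ⟨H', i1, i2, h1, h2, h3, e, he1, fun σ f g hfg => congrArg Subtype.val (he2 σ f g hfg)⟩

/-- **`IsFlatAt` (S32) from Hopf orders of functions on the finite quotients.** -/
theorem isFlatAt_of_orders {A : Type} [CommRing A] [IsLocalRing A] (ρ : GaloisRepAdic A) (p : ℕ)
    (hres : Finite (IsLocalRing.ResidueField A))
    (hI : ∀ I : Ideal A, Finite (A ⧸ I) →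
      ∃ H : Subalgebra (ratLocalizedAt p)
          ((ρ.V ⧸ (I • (⊤ : Submodule A ρ.V))) → AlgebraicClosure ℚ),
        (Subalgebra.toSubmodule H).FG ∧
        (∀ h ∈ H, ∀ (σ : AlgebraicClosure ℚ ≃ₐ[ℚ] AlgebraicClosure ℚ)
          (x : ρ.V ⧸ (I • (⊤ : Submodule A ρ.V))), h (ρ.levelAction I σ x) = σ (h x)) ∧
        (∀ x y : ρ.V ⧸ (I • (⊤ : Submodule A ρ.V)), x ≠ y → ∃ h ∈ H, h x ≠ h y) ∧
        ∀ h ∈ H, (fun q : (ρ.V ⧸ (I • (⊤ : Submodule A ρ.V))) ×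
            (ρ.V ⧸ (I • (⊤ : Submodule A ρ.V))) => h (q.1 + q.2)) ∈
          Submodule.span (ratLocalizedAt p)
            {F | ∃ a ∈ H, ∃ b ∈ H, F = fun q => a q.1 * b q.2}) :
    ρ.IsFlatAt p := by
  refine ⟨hres, fun I hfin => ?_⟩
  obtain ⟨H, hfg, heq, hsep, hΔ⟩ := hI I hfin
  exact exists_hopf_of_order p (fun σ x => ρ.levelAction I σ x) H hfg heq hsep hΔ

end Fermat.Agent.S19.HopfOrder
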