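/-
S19 / S32 / S56, route-independent dictionary (helper235): THE CONVERSE of the consumer.

`exists_order_of_hopf` : any bialgebra `H` over `ℤ_(ℓ)`, module-finite, whose `ℚ̄`-points
(convolution) are identified with a group `G` additively and `act`-equivariantly (the frozen
existential shape of S19 and of `GaloisRepAdic.IsFlatAt`), gives an order of functions on `G`:
a finitely generated `ℤ_(ℓ)`-subalgebra of `G → ℚ̄` of `act`-equivariant functions, separating
the points and closed under `h ↦ ((x, y) ↦ h (x + y))` — i.e. exactly the four hypotheses of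
`exists_hopf_of_order`.  (Flatness, cocommutativity and the antipode are not used.)

* `exists_order_of_hopf`   : the converse;
* `isOrder_of_subalgebra`, `IsOrder.exists_subalgebra` : the subalgebra form and the `IsOrder`
  form of an order are interchangeable;
* `exists_hopf_iff_order`  : the frozen existential is EQUIVALENT to the existence of an order;
* `order_of_isFlatAt`      : `GaloisRepAdic.IsFlatAt` gives orders on all finite quotients.
-/
import Mathlib
import Fermat.Agent.S19.HopfOrder.Frozen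

set_option autoImplicit false

noncomputable section

namespace Fermat.Agent.S19.HopfOrder

open scoped TensorProduct
open GaloisRep

variable {ℓ : ℕ} {G : Type}

/-- `σ ∈ Gal(ℚ̄/ℚ)` as a `ℤ_(ℓ)`-algebra endomorphism of `ℚ̄`. -/
def galAlgHom (ℓ : ℕ) (σ : Gal) : Qb →ₐ[Zl ℓ] Qb :=
  (σ : Qb →ₐ[ℚ] Qb).restrictScalars (Zl ℓ)

@[simp] theorem galAlgHom_apply (σ : Gal) (c : Qb) : galAlgHom ℓ σ c = σ c := rfl

/-- The functions on `G` defined by the elements of `H`: `h ↦ (x ↦ (e.symm x) h)`. -/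
def ptsHom {H : Type} [CommRing H] [Algebra (Zl ℓ) H]
    (e : WithConv (H →ₐ[Zl ℓ] Qb) ≃ G) : H →ₐ[Zl ℓ] (G → Qb) :=
  AlgHom.pi (fun x => (e.symm x).ofConv)

@[simp] theorem ptsHom_apply {H : Type} [CommRing H] [Algebra (Zl ℓ) H]
    (e : WithConv (H →ₐ[Zl ℓ] Qb) ≃ G) (h : H) (x : G) :
    ptsHom e h x = (e.symm x).ofConv h := rfl

/-- **The converse of the consumer.** -/
theorem exists_order_of_hopf (ℓ : ℕ) {G : Type} [AddCommGroup G] (act : Gal → G → G)
    (H : Type) [CommRing H] [Bialgebra (ratLocalizedAt ℓ) H]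
    [Module.Finite (ratLocalizedAt ℓ) H]
    (e : WithConv (H →ₐ[ratLocalizedAt ℓ] AlgebraicClosure ℚ) ≃ G)
    (hadd : ∀ f g, e (f * g) = e f + e g)
    (heq : ∀ (σ : AlgebraicClosure ℚ ≃ₐ[ℚ] AlgebraicClosure ℚ)
      (f g : WithConv (H →ₐ[ratLocalizedAt ℓ] AlgebraicClosure ℚ)),
      (∀ h : H, g h = σ (f h)) → e g = act σ (e f)) :
    ∃ K : Subalgebra (ratLocalizedAt ℓ) (G → Qb),
      (Subalgebra.toSubmodule K).FG ∧
      (∀ h ∈ K, ∀ (σ : Gal) (x : G), h (act σ x) = σ (h x)) ∧
      (∀ x y : G, x ≠ y → ∃ h ∈ K, h x ≠ h y) ∧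
      (∀ h ∈ K, (fun p : G × G => h (p.1 + p.2)) ∈
        Submodule.span (ratLocalizedAt ℓ)
          {F : G × G → Qb | ∃ a ∈ K, ∃ b ∈ K, F = fun p => a p.1 * b p.2}) := by
  refine ⟨(ptsHom e).range, ?_, ?_, ?_, ?_⟩
  · -- finitely generated
    have h1 : Subalgebra.toSubmodule (ptsHom e).range = LinearMap.range (ptsHom e).toLinearMap := by
      ext f
      simp [AlgHom.mem_range]
    rw [h1, LinearMap.range_eq_map]
    exact Submodule.FG.map _ (Module.Finite.fg_top)
  · -- equivariance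
    rintro _ ⟨h, rfl⟩ σ x
    have key : e (WithConv.toConv ((galAlgHom ℓ σ).comp (e.symm x).ofConv)) = act σ (e (e.symm x)) :=
      heq σ (e.symm x) (WithConv.toConv ((galAlgHom ℓ σ).comp (e.symm x).ofConv)) (fun _ => rfl)
    rw [Equiv.apply_symm_apply] at key
    have key2 : e.symm (act σ x) = WithConv.toConv ((galAlgHom ℓ σ).comp (e.symm x).ofConv) := by
      rw [← key, Equiv.symm_apply_apply]
    change (e.symm (act σ x)).ofConv h = σ ((e.symm x).ofConv h)
    rw [key2]
    rfl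
  · -- separation
    intro x y hxy
    by_contra hcon
    apply hxy
    apply e.symm.injective
    apply WithConv.ofConv_injective
    apply AlgHom.ext
    intro h
    by_contra hne
    exact hcon ⟨ptsHom e h, ⟨h, rfl⟩, hne⟩
  · -- closure under the comultiplication
    rintro _ ⟨h, rfl⟩
    have hmul : ∀ x y : G, e.symm (x + y) = e.symm x * e.symm y := by
      intro x y
      apply e.injective
      rw [hadd, Equiv.apply_symm_apply, Equiv.apply_symm_apply, Equiv.apply_symm_apply]
    have hspan : ∀ t : H ⊗[Zl ℓ] H,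
        (fun p : G × G => Algebra.TensorProduct.lmul' (Zl ℓ) (S := Qb)
          (Algebra.TensorProduct.map (e.symm p.1).ofConv (e.symm p.2).ofConv t)) ∈
        Submodule.span (ratLocalizedAt ℓ)
          {F : G × G → Qb | ∃ a ∈ (ptsHom e).range, ∃ b ∈ (ptsHom e).range,
            F = fun p => a p.1 * b p.2} := by
      intro t
      induction t using TensorProduct.induction_on with
      | zero =>
        have : (fun p : G × G => Algebra.TensorProduct.lmul' (Zl ℓ) (S := Qb)
            (Algebra.TensorProduct.map (e.symm p.1).ofConv (e.symm p.2).ofConv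
              (0 : H ⊗[Zl ℓ] H))) = 0 := by
          funext p; simp
        rw [this]
        exact Submodule.zero_mem _
      | tmul a b =>
        apply Submodule.subset_span
        refine ⟨ptsHom e a, ⟨a, rfl⟩, ptsHom e b, ⟨b, rfl⟩, ?_⟩
        funext p
        simp
      | add s t hs ht =>
        have : (fun p : G × G => Algebra.TensorProduct.lmul' (Zl ℓ) (S := Qb)
            (Algebra.TensorProduct.map (e.symm p.1).ofConv (e.symm p.2).ofConv (s + t))) =
            (fun p : G × G => Algebra.TensorProduct.lmul' (Zl ℓ) (S := Qb)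
              (Algebra.TensorProduct.map (e.symm p.1).ofConv (e.symm p.2).ofConv s)) +
            (fun p : G × G => Algebra.TensorProduct.lmul' (Zl ℓ) (S := Qb)
              (Algebra.TensorProduct.map (e.symm p.1).ofConv (e.symm p.2).ofConv t)) := by
          funext p; simp [map_add]
        rw [this]
        exact Submodule.add_mem _ hs ht
    have hfun : (fun p : G × G => ptsHom e h (p.1 + p.2)) =
        (fun p : G × G => Algebra.TensorProduct.lmul' (Zl ℓ) (S := Qb)
          (Algebra.TensorProduct.map (e.symm p.1).ofConv (e.symm p.2).ofConv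
            (Coalgebra.comul (R := Zl ℓ) h))) := by
      funext p
      change (e.symm (p.1 + p.2)).ofConv h = _
      rw [hmul]
      rfl
    have hmem := hspan (Coalgebra.comul (R := Zl ℓ) h)
    rw [← hfun] at hmem
    exact hmem

/-- The four subalgebra-form hypotheses give an `IsOrder` (for the inclusion of the subalgebra). -/
theorem isOrder_of_subalgebra (ℓ : ℕ) {G : Type} [AddCommGroup G] (act : Gal → G → G)
    (H : Subalgebra (ratLocalizedAt ℓ) (G → Qb))
    (hfg : (Subalgebra.toSubmodule H).FG)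
    (heq : ∀ h ∈ H, ∀ (σ : Gal) (x : G), h (act σ x) = σ (h x))
    (hsep : ∀ x y : G, x ≠ y → ∃ h ∈ H, h x ≠ h y)
    (hΔ : ∀ h ∈ H, (fun p : G × G => h (p.1 + p.2)) ∈
      Submodule.span (ratLocalizedAt ℓ)
        {F : G × G → Qb | ∃ a ∈ H, ∃ b ∈ H, F = fun p => a p.1 * b p.2}) :
    IsOrder (ℓ := ℓ) act H.val := by
  refine ⟨?_, Subtype.val_injective, fun h σ x => heq h.1 h.2 σ x, ?_, ?_⟩
  · exact Module.Finite.iff_fg.mpr hfg
  · intro x y hxy
    obtain ⟨h, hh, hne⟩ := hsep x y hxy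
    exact ⟨⟨h, hh⟩, hne⟩
  · intro h
    have hle : Submodule.span (ratLocalizedAt ℓ)
        {F : G × G → Qb | ∃ a ∈ H, ∃ b ∈ H, F = fun p => a p.1 * b p.2} ≤
        LinearMap.range (mu2 H.val).toLinearMap := by
      refine Submodule.span_le.mpr ?_
      rintro _ ⟨a, ha, b, hb, rfl⟩
      refine ⟨(⟨a, ha⟩ : H) ⊗ₜ[Zl ℓ] (⟨b, hb⟩ : H), ?_⟩
      funext p
      simp
    obtain ⟨t, ht⟩ := hle (hΔ h.1 h.2)
    exact ⟨t, ht⟩

/-- Conversely, an `IsOrder` gives the four subalgebra-form hypotheses for the range of `ι`. -/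
theorem IsOrder.exists_subalgebra {ℓ : ℕ} {G : Type} [AddCommGroup G] {A : Type} [CommRing A]
    [Algebra (Zl ℓ) A] {act : Gal → G → G} {ι : A →ₐ[Zl ℓ] (G → Qb)} (O : IsOrder act ι) :
    ∃ K : Subalgebra (ratLocalizedAt ℓ) (G → Qb), K = ι.range ∧
      (Subalgebra.toSubmodule K).FG ∧
      (∀ h ∈ K, ∀ (σ : Gal) (x : G), h (act σ x) = σ (h x)) ∧
      (∀ x y : G, x ≠ y → ∃ h ∈ K, h x ≠ h y) ∧
      (∀ h ∈ K, (fun p : G × G => h (p.1 + p.2)) ∈
        Submodule.span (ratLocalizedAt ℓ)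
          {F : G × G → Qb | ∃ a ∈ K, ∃ b ∈ K, F = fun p => a p.1 * b p.2}) := by
  have hfin := O.finite
  refine ⟨ι.range, rfl, ?_, ?_, ?_, ?_⟩
  · have h1 : Subalgebra.toSubmodule ι.range = LinearMap.range ι.toLinearMap := by
      ext f
      simp [AlgHom.mem_range]
    rw [h1, LinearMap.range_eq_map]
    exact Submodule.FG.map _ (Module.Finite.fg_top)
  · rintro _ ⟨a, rfl⟩ σ x
    exact O.equivariant a σ x
  · intro x y hxy
    obtain ⟨a, ha⟩ := O.sep x y hxy
    exact ⟨ι a, ⟨a, rfl⟩, ha⟩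
  · rintro _ ⟨a, rfl⟩
    obtain ⟨t, ht⟩ := O.comul a
    have hspan : ∀ t : A ⊗[Zl ℓ] A, mu2 ι t ∈ Submodule.span (ratLocalizedAt ℓ)
        {F : G × G → Qb | ∃ a ∈ ι.range, ∃ b ∈ ι.range, F = fun p => a p.1 * b p.2} := by
      intro t
      induction t using TensorProduct.induction_on with
      | zero =>
        rw [map_zero]
        exact Submodule.zero_mem _
      | tmul a b =>
        apply Submodule.subset_span
        refine ⟨ι a, ⟨a, rfl⟩, ι b, ⟨b, rfl⟩, ?_⟩
        funext p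
        simp
      | add s t hs ht =>
        rw [map_add]
        exact Submodule.add_mem _ hs ht
    have hmem := hspan t
    rw [ht] at hmem
    exact hmem

/-- **The frozen existential is equivalent to the existence of an order of functions.** -/
theorem exists_hopf_iff_order (ℓ : ℕ) {G : Type} [AddCommGroup G] (act : Gal → G → G) :
    (∃ (H : Type) (_ : CommRing H) (_ : HopfAlgebra (ratLocalizedAt ℓ) H),
      Module.Finite (ratLocalizedAt ℓ) H ∧ Module.Flat (ratLocalizedAt ℓ) H ∧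
      Coalgebra.IsCocomm (ratLocalizedAt ℓ) H ∧
      ∃ e : WithConv (H →ₐ[ratLocalizedAt ℓ] AlgebraicClosure ℚ) ≃ G,
        (∀ f g, e (f * g) = e f + e g) ∧
        ∀ (σ : AlgebraicClosure ℚ ≃ₐ[ℚ] AlgebraicClosure ℚ)
          (f g : WithConv (H →ₐ[ratLocalizedAt ℓ] AlgebraicClosure ℚ)),
          (∀ h : H, g h = σ (f h)) → e g = act σ (e f)) ↔
    ∃ K : Subalgebra (ratLocalizedAt ℓ) (G → Qb),
      (Subalgebra.toSubmodule K).FG ∧
      (∀ h ∈ K, ∀ (σ : Gal) (x : G), h (act σ x) = σ (h x)) ∧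
      (∀ x y : G, x ≠ y → ∃ h ∈ K, h x ≠ h y) ∧
      (∀ h ∈ K, (fun p : G × G => h (p.1 + p.2)) ∈
        Submodule.span (ratLocalizedAt ℓ)
          {F : G × G → Qb | ∃ a ∈ K, ∃ b ∈ K, F = fun p => a p.1 * b p.2}) := by
  constructor
  · rintro ⟨H, i1, i2, hfin, -, -, e, hadd, heq⟩
    exact exists_order_of_hopf ℓ act H e hadd heq
  · rintro ⟨K, hfg, heq, hsep, hΔ⟩
    exact exists_hopf_of_order ℓ act K hfg heq hsep hΔ

/-- `GaloisRepAdic.IsFlatAt` gives an order of functions on every finite quotient. -/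
theorem order_of_isFlatAt {A : Type} [CommRing A] [IsLocalRing A] (ρ : GaloisRepAdic A) (p : ℕ)
    (h : ρ.IsFlatAt p) (I : Ideal A) (hI : Finite (A ⧸ I)) :
    ∃ K : Subalgebra (ratLocalizedAt p)
        ((ρ.V ⧸ (I • (⊤ : Submodule A ρ.V))) → AlgebraicClosure ℚ),
      (Subalgebra.toSubmodule K).FG ∧
      (∀ h ∈ K, ∀ (σ : AlgebraicClosure ℚ ≃ₐ[ℚ] AlgebraicClosure ℚ)
        (x : ρ.V ⧸ (I • (⊤ : Submodule A ρ.V))), h (ρ.levelAction I σ x) = σ (h x)) ∧
      (∀ x y : ρ.V ⧸ (I • (⊤ : Submodule A ρ.V)), x ≠ y → ∃ h ∈ K, h x ≠ h y) ∧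
      ∀ h ∈ K, (fun q : (ρ.V ⧸ (I • (⊤ : Submodule A ρ.V))) ×
          (ρ.V ⧸ (I • (⊤ : Submodule A ρ.V))) => h (q.1 + q.2)) ∈
        Submodule.span (ratLocalizedAt p)
          {F | ∃ a ∈ K, ∃ b ∈ K, F = fun q => a q.1 * b q.2} := by
  obtain ⟨H, i1, i2, hfin, -, -, e, hadd, heq⟩ := h.2 I hI
  exact exists_order_of_hopf p (fun σ x => ρ.levelAction I σ x) H e hadd heq

end Fermat.Agent.S19.HopfOrder
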